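import Fermat.Agent.MU.F3.EigenPadic.Theta
import Fermat.Agent.S30.Iface
import Fermat.Agent.F3.EigenChar.Involution

section MergeWrap_F3_EigenPadic_Final -- from F3/EigenPadic/Final.lean

set_option autoImplicit false
set_option linter.unusedSectionVars false

/-!
# Cluster A (F3): provider of `S30.EigenclassPadic N`  (owner: helper21)

`eigenclassPadic_of : HeckeInvolutionComm N → KappaFamily N → S30.EigenclassPadic N`.

* `KappaFamily N` is the prime-power form of the analytic package A3 (helper43):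
  `κ n : HomPar N → J₀(N)(ℚ̄)[p ^ n]`, `ℤ`-linear, kernel inside `p ^ n • HomPar N`,
  `p • κ (n + 1) = κ n`, Hecke-equivariant.
* the `χ`-eigenvector `x₀ ∈ O ⊗ HomPar N` comes from `exists_eigenvector_homPar` (Theta.lean);
  `x n := (O ⊗ κ n) x₀`.
-/

noncomputable section

namespace Fermat.Agent.F3EP

open CongruenceSubgroup ModularCurve ModularCurve.Period Fermat.Agent.F3EC IsLocalRing
open scoped TensorProduct

/-- (A3, prime-power form) the compatible family of Kummer maps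
`κ n : Hom_par(Γ₀(N), ℤ) → J₀(N)(ℚ̄)[p ^ n]`. -/
def KappaFamily (N : ℕ) [NeZero N] : Prop :=
  ∀ p : ℕ, p.Prime → ∃ κ : (n : ℕ) → HomPar N →ₗ[ℤ] Fermat.Agent.F3.Jtors N (p ^ n),
    (∀ (n : ℕ) (c : HomPar N), κ n c = 0 → ∃ c' : HomPar N, c = (p ^ n : ℕ) • c') ∧
    (∀ (n : ℕ) (c : HomPar N), Fermat.Agent.S30.mulPTors N p n (κ (n + 1) c) = κ n c) ∧
    ∀ (n : ℕ) (ℓ : Nat.Primes), ¬ (ℓ : ℕ) ∣ N * p → ∀ c : HomPar N,
      κ n (heckeHom N ℓ c) = Fermat.Agent.F3.heckeTors N (p ^ n) ℓ (κ n c)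

section Flat

variable {M X : Type*} [AddCommGroup M] [AddCommGroup X]

/-- If the kernel of `κ : M → X` lies in `m M` and `O` is flat over `ℤ`, the kernel of `O ⊗ κ`
lies in `m (O ⊗ M)`. -/
theorem exists_eq_smul_of_baseChange_eq_zero (O : Type*) [CommRing O] [Module.Flat ℤ O]
    (κ : M →ₗ[ℤ] X) (m : ℕ) (hker : ∀ c : M, κ c = 0 → ∃ c' : M, c = m • c')
    (x : O ⊗[ℤ] M) (hx : κ.baseChange O x = 0) : ∃ y : O ⊗[ℤ] M, x = m • y := by
  set K : Submodule ℤ M := LinearMap.ker κ with hK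
  set κbar : (M ⧸ K) →ₗ[ℤ] X := K.liftQ κ le_rfl with hκbar
  have hκbar_inj : Function.Injective κbar := by
    rw [← LinearMap.ker_eq_bot, hκbar, Submodule.ker_liftQ_eq_bot _ _ _ le_rfl]
  have hcomp : κ = κbar ∘ₗ K.mkQ := by
    ext c
    simp [hκbar]
  have hL : Function.Injective (LinearMap.lTensor O κbar) :=
    Module.Flat.lTensor_preserves_injective_linearMap κbar hκbar_inj
  have h1 : LinearMap.lTensor O κbar (LinearMap.lTensor O K.mkQ x) = 0 := by
    rw [← LinearMap.lTensor_comp_apply, ← hcomp, ← LinearMap.baseChange_eq_ltensor]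
    exact hx
  have h2 : LinearMap.lTensor O K.mkQ x = 0 := hL (h1.trans (map_zero _).symm)
  have hex : Function.Exact (LinearMap.lTensor O K.subtype) (LinearMap.lTensor O K.mkQ) :=
    lTensor_exact O (LinearMap.exact_subtype_mkQ K) (Submodule.mkQ_surjective K)
  obtain ⟨z, hz⟩ := (hex x).mp h2
  rw [← hz]
  clear hz h2 h1 hx
  induction z using TensorProduct.induction_on with
  | zero => exact ⟨0, by simp⟩
  | tmul o k =>
    obtain ⟨c', hc'⟩ := hker k.1 k.2
    refine ⟨o ⊗ₜ[ℤ] c', ?_⟩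
    rw [LinearMap.lTensor_tmul, Submodule.subtype_apply, hc', TensorProduct.tmul_smul]
  | add a b ha hb =>
    obtain ⟨ya, hya⟩ := ha
    obtain ⟨yb, hyb⟩ := hb
    exact ⟨ya + yb, by rw [map_add, hya, hyb, smul_add]⟩

/-- In a finite free module over a domain `O` in which `p` is a nonunit and multiplicities are
finite, a vector divisible by all powers of `p` vanishes. -/
theorem eq_zero_of_forall_pow_smul {O : Type*} [CommRing O] [IsDomain O] [WfDvdMonoid O]
    [Module.Free ℤ M] [Module.Finite ℤ M] {p : ℕ} (hp : ¬ IsUnit (p : O))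
    (x : O ⊗[ℤ] M) (h : ∀ n : ℕ, ∃ y : O ⊗[ℤ] M, x = (p ^ n : ℕ) • y) : x = 0 := by
  classical
  set b := Algebra.TensorProduct.basis O (Module.Free.chooseBasis ℤ M) with hb
  apply b.repr.injective
  rw [map_zero]
  ext i
  rw [Finsupp.zero_apply]
  by_contra hne
  obtain ⟨n, hn⟩ := FiniteMultiplicity.of_not_isUnit hp hne
  obtain ⟨y, hy⟩ := h (n + 1)
  apply hn
  refine ⟨b.repr y i, ?_⟩
  rw [hy, map_nsmul, Finsupp.smul_apply, nsmul_eq_mul]
  push_cast
  rfl

end Flat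

/-- **Provider of the `p`-adic eigenclass.** -/
theorem eigenclassPadic_of (N : ℕ) [NeZero N] (hI : HeckeInvolutionComm N)
    (hκ : KappaFamily N) : Fermat.Agent.S30.EigenclassPadic N := by
  intro p _ S hpS hNS O _ _ _ _ _ _ hpO χ
  have hp : p.Prime := Fact.out
  obtain ⟨κ, hker, hcompat, hκT⟩ := hκ p hp
  have hNS' : ∀ q : ℕ, q.Prime → q ∣ N → q ∈ (↑S : Set ℕ) := fun q hq hqN =>
    Finset.mem_coe.mpr (hNS q hq hqN)
  obtain ⟨x₀, hx0, hx⟩ := exists_eigenvector_homPar hI hNS' χ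
  refine ⟨fun n => (κ n).baseChange O x₀, ?_, ?_, ?_⟩
  · by_contra hcon
    push Not at hcon
    apply hx0
    have hpu : ¬ IsUnit (p : O) := fun hu =>
      (IsLocalRing.mem_maximalIdeal _).mp hpO hu
    exact eq_zero_of_forall_pow_smul hpu x₀ fun n =>
      exists_eq_smul_of_baseChange_eq_zero O (κ n) (p ^ n) (hker n) x₀ (hcon n)
  · intro n
    rw [← LinearMap.comp_apply, ← LinearMap.baseChange_comp]
    congr 2
    ext c
    exact congrArg Subtype.val (hcompat n c)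
  · intro n ℓ hℓ hℓN hℓS
    have hℓp : ¬ ℓ ∣ N * p := by
      intro hdvd
      rcases (Nat.Prime.dvd_mul hℓ).mp hdvd with h | h
      · exact hℓN h
      · have : ℓ = p := (Nat.prime_dvd_prime_iff_eq hℓ hp).mp h
        exact hℓS (this ▸ Finset.mem_coe.mpr hpS)
    have hcomm : (Fermat.Agent.F3.heckeTors N (p ^ n) ⟨ℓ, hℓ⟩).baseChange O ∘ₗ (κ n).baseChange O
        = (κ n).baseChange O ∘ₗ (heckeHom N ⟨ℓ, hℓ⟩).baseChange O := by
      rw [← LinearMap.baseChange_comp, ← LinearMap.baseChange_comp]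
      congr 1
      ext c
      exact congrArg Subtype.val (hκT n ⟨ℓ, hℓ⟩ hℓp c).symm
    have h1 := congrArg (fun f => f x₀) hcomm
    simp only [LinearMap.comp_apply] at h1
    rw [h1, hx ℓ hℓ hℓN hℓS, map_smul]

end Fermat.Agent.F3EP
end
end MergeWrap_F3_EigenPadic_Final

section MergeWrap_F3_EigenPadic_Closed -- from F3/EigenPadic/Closed.lean

set_option autoImplicit false
set_option linter.unusedSectionVars false

/-!
# Cluster A (F3): `S30.EigenclassPadic N` from the analytic package `(K1)`  (owner: helper21)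

* `heckeInvolutionComm N` : closes the input `HeckeInvolutionComm N` (helper83's
  `heckeHomAll_charInvolution`).
* `kappaFamily_of_all` : the architect's `(K1)` shape (`κ n` for ALL `n`, `d • κ (d n) = κ n`,
  Hecke-equivariance for `ℓ ∤ N`) gives `KappaFamily N`.
* `eigenclassPadic_of_kappa` : `(K1)` ⟹ `S30.EigenclassPadic N`, UNCONDITIONAL on the period side.
-/

noncomputable section

namespace Fermat.Agent.F3EP

open CongruenceSubgroup ModularCurve ModularCurve.Period Fermat.Agent.F3EC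
open scoped TensorProduct

/-- (P1) closed: the coset Hecke operators commute with the Prelude's `charInvolution`. -/
theorem heckeInvolutionComm (N : ℕ) : HeckeInvolutionComm N :=
  fun _ _ hℓN c => heckeHomAll_charInvolution hℓN c

/-- The period side, unconditional: every character `χ` of the Hecke algebra (away from
`S ⊇ {q ∣ N}`) with values in a domain `O` occurs in `O ⊗ Hom_par(Γ₀(N), ℤ)`. -/
theorem exists_eigenvector_homPar' {N : ℕ} [NeZero N] {S : Set ℕ}
    (hNS : ∀ q : ℕ, q.Prime → q ∣ N → q ∈ S)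
    {O : Type*} [CommRing O] [IsDomain O] (χ : CuspForm.heckeAlgebra N 2 S →+* O) :
    ∃ x : O ⊗[ℤ] HomPar N, x ≠ 0 ∧
      ∀ (ℓ : ℕ) (hℓ : ℓ.Prime) (hℓN : ¬ ℓ ∣ N) (hℓS : ℓ ∉ S),
        (heckeHom N ⟨ℓ, hℓ⟩).baseChange O x = χ (CuspForm.heckeAlgebra.T hℓ hℓN hℓS) • x :=
  exists_eigenvector_homPar (heckeInvolutionComm N) hNS χ

theorem coe_kappa_congr {N : ℕ} [NeZero N]
    (κ : (n : ℕ) → HomPar N →ₗ[ℤ] Fermat.Agent.F3.Jtors N n) {a b : ℕ} (h : a = b)
    (c : HomPar N) : ((κ a c : Fermat.Agent.F3.Jtors N a) : JZero N) = (κ b c : JZero N) := by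
  subst h
  rfl

/-- `(K1)` (all `n`) gives the prime-power family. -/
theorem kappaFamily_of_all (N : ℕ) [NeZero N]
    (κ : (n : ℕ) → HomPar N →ₗ[ℤ] Fermat.Agent.F3.Jtors N n)
    (hker : ∀ n : ℕ, 0 < n → ∀ c : HomPar N, κ n c = 0 → ∃ c' : HomPar N, c = (n : ℤ) • c')
    (hcompat : ∀ (n d : ℕ) (c : HomPar N), 0 < n → 0 < d →
      (d : ℤ) • ((κ (d * n) c : Fermat.Agent.F3.Jtors N (d * n)) : JZero N) = (κ n c : JZero N))
    (hT : ∀ (n : ℕ) (ℓ : Nat.Primes), ¬ (ℓ : ℕ) ∣ N → ∀ c : HomPar N,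
      κ n (heckeHom N ℓ c) = Fermat.Agent.F3.heckeTors N n ℓ (κ n c)) :
    KappaFamily N := by
  intro p hp
  refine ⟨fun n => κ (p ^ n), ?_, ?_, ?_⟩
  · intro n c hc
    obtain ⟨c', hc'⟩ := hker (p ^ n) (pow_pos hp.pos n) c hc
    exact ⟨c', by rw [hc', natCast_zsmul]⟩
  · intro n c
    apply Subtype.ext
    rw [Fermat.Agent.S30.mulPTors_coe, coe_kappa_congr κ (pow_succ' p n) c]
    exact hcompat (p ^ n) p c (pow_pos hp.pos n) hp.pos
  · intro n ℓ hℓ c
    exact hT (p ^ n) ℓ (fun h => hℓ (Dvd.dvd.mul_right h p)) c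

/-- **`(K1)` ⟹ `S30.EigenclassPadic N`.** -/
theorem eigenclassPadic_of_kappa (N : ℕ) [NeZero N]
    (κ : (n : ℕ) → HomPar N →ₗ[ℤ] Fermat.Agent.F3.Jtors N n)
    (hker : ∀ n : ℕ, 0 < n → ∀ c : HomPar N, κ n c = 0 → ∃ c' : HomPar N, c = (n : ℤ) • c')
    (hcompat : ∀ (n d : ℕ) (c : HomPar N), 0 < n → 0 < d →
      (d : ℤ) • ((κ (d * n) c : Fermat.Agent.F3.Jtors N (d * n)) : JZero N) = (κ n c : JZero N))
    (hT : ∀ (n : ℕ) (ℓ : Nat.Primes), ¬ (ℓ : ℕ) ∣ N → ∀ c : HomPar N,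
      κ n (heckeHom N ℓ c) = Fermat.Agent.F3.heckeTors N n ℓ (κ n c)) :
    Fermat.Agent.S30.EigenclassPadic N :=
  eigenclassPadic_of N (heckeInvolutionComm N) (kappaFamily_of_all N κ hker hcompat hT)

end Fermat.Agent.F3EP
end
end MergeWrap_F3_EigenPadic_Closed
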